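import Fermat.Agent.S34.T0

set_option autoImplicit false

/-!
# S33 / N3 / Move : the semi-local moving lemma on the chart `C = CInt R K t`

If `u * h i ^ m` is a unit of the local ring at `n i` for finitely many distinct maximal ideals `n i`,
then one single `H` works for all of them (`Pic` of a semi-local normal ring is trivial).
-/

noncomputable section

namespace Fermat.Agent.S33.N3

open Polynomial IntermediateField Fermat.Agent.S18 Fermat.Agent.S34

variable {R K F : Type} [CommRing R] [IsDomain R] [IsDiscreteValuationRing R] [Field K] [CharZero K]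
  [Algebra R K] [IsFractionRing R K] [Field F] [Algebra K F]

theorem locUnit_mul {t : F} {n : Ideal (CInt R K t)} [n.IsPrime] {y z : F} (hy : LocUnit n y)
    (hz : LocUnit n z) : LocUnit n (y * z) :=
  ⟨mul_ne_zero hy.1 hz.1, hy.2.1.mul hz.2.1, by rw [mul_inv]; exact hy.2.2.mul hz.2.2⟩

theorem locUnit_inv {t : F} {n : Ideal (CInt R K t)} {y : F} (hy : LocUnit n y) :
    LocUnit n y⁻¹ :=
  ⟨inv_ne_zero hy.1, hy.2.2, by rw [inv_inv]; exact hy.2.1⟩

theorem locUnit_pow {t : F} {n : Ideal (CInt R K t)} [n.IsPrime] {y : F} (hy : LocUnit n y)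
    (k : ℕ) : LocUnit n (y ^ k) :=
  ⟨pow_ne_zero _ hy.1, hy.2.1.pow k, by rw [← inv_pow]; exact hy.2.2.pow k⟩

theorem inMax_zero {t : F} (n : Ideal (CInt R K t)) [n.IsPrime] : InMax n (0 : F) :=
  ⟨1, loc_one_notMem n, 0, n.zero_mem, by simp⟩

theorem inMax_sum {t : F} {n : Ideal (CInt R K t)} [n.IsPrime] {ι : Type} (s : Finset ι)
    (f : ι → F) (hf : ∀ i ∈ s, InMax n (f i)) : InMax n (∑ i ∈ s, f i) := by
  classical
  induction s using Finset.induction_on with
  | empty => rw [Finset.sum_empty]; exact inMax_zero n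
  | insert a s ha ih =>
    rw [Finset.sum_insert ha]
    exact (hf a (Finset.mem_insert_self a s)).add
      (ih fun i hi => hf i (Finset.mem_insert_of_mem hi))

theorem mem_of_inMax_coe {t : F} {n : Ideal (CInt R K t)} [hn : n.IsPrime] {e : CInt R K t}
    (h : InMax n (e : F)) : e ∈ n := by
  obtain ⟨d, hd, w, hw, hdw⟩ := h
  have : d * e = w := Subtype.ext (by rw [Subring.coe_mul, hdw])
  exact (hn.mem_or_mem (this ▸ hw)).resolve_left hd

theorem prod_notMem {t : F} {n : Ideal (CInt R K t)} [n.IsPrime] {ι : Type} (s : Finset ι)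
    (f : ι → CInt R K t) (hf : ∀ i ∈ s, f i ∉ n) : ∏ i ∈ s, f i ∉ n := by
  classical
  induction s using Finset.induction_on with
  | empty => rw [Finset.prod_empty]; exact loc_one_notMem n
  | insert a s ha ih =>
    rw [Finset.prod_insert ha]
    exact loc_mul_notMem (hf a (Finset.mem_insert_self a s))
      (ih fun i hi => hf i (Finset.mem_insert_of_mem hi))

/-- **the semi-local moving lemma**. -/
theorem semilocal_move {t : F} {ι : Type} [Finite ι] (n : ι → Ideal (CInt R K t))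
    (hmax : ∀ i, (n i).IsMaximal) (hinj : Function.Injective n) {m : ℕ} (hm : m ≠ 0) (u : F)
    (h : ι → F) (hh : ∀ i, h i ≠ 0) (hu : ∀ i, LocUnit (n i) (u * h i ^ m)) :
    ∃ H : F, H ≠ 0 ∧ ∀ i, LocUnit (n i) (u * H ^ m) ∧ LocUnit (n i) (H / h i) := by
  classical
  cases nonempty_fintype ι
  haveI hpr : ∀ i, (n i).IsPrime := fun i => (hmax i).isPrime
  rcases isEmpty_or_nonempty ι with hE | ⟨⟨i₀⟩⟩
  · exact ⟨1, one_ne_zero, fun i => (hE.false i).elim⟩
  -- the pair lemma
  have hpair : ∀ i j, ∃ a b : CInt R K t, a ∉ n i ∧ b ∉ n j ∧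
      (a : F) * (b : F) * (h j / h i) ∈ CInt R K t := by
    intro i j
    obtain ⟨hu0, -, a, ha, ha'⟩ := hu i
    obtain ⟨-, ⟨b, hb, hb'⟩, -⟩ := hu j
    refine ⟨a, b, ha, hb, loc_mem_CInt_of_pow hm ?_⟩
    obtain ⟨k, rfl⟩ := Nat.exists_eq_succ_of_ne_zero hm
    have hu1 : u ≠ 0 := left_ne_zero_of_mul hu0
    have e : ((a : F) * (b : F) * (h j / h i)) ^ (k + 1)
        = ((a : F) * (b : F)) ^ k * (((a : F) * (u * h i ^ (k + 1))⁻¹)
          * ((b : F) * (u * h j ^ (k + 1)))) := by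
      have h1 := hh i
      rw [mul_pow, div_pow, mul_inv]
      field_simp
      ring
    rw [Nat.succ_eq_add_one, e]
    exact mul_mem (pow_mem (mul_mem a.2 b.2) k) (mul_mem ha' hb')
  choose a b ha hb hab using hpair
  -- separating elements
  have hsep : ∀ i j, i ≠ j → ∃ c : CInt R K t, c ∈ n i ∧ c ∉ n j := by
    intro i j hij
    by_contra hcon
    push_neg at hcon
    have hle : n i ≤ n j := fun c hc => hcon c hc
    exact hij (hinj ((hmax i).eq_of_le (hmax j).ne_top hle))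
  choose! c hc hc' using hsep
  -- the coefficients
  let e : ι → CInt R K t := fun j => ∏ i ∈ Finset.univ.erase j, (c i j * b i j)
  have he : ∀ j, e j ∉ n j := fun j => prod_notMem _ _ fun i hi =>
    loc_mul_notMem (hc' i j (Finset.ne_of_mem_erase hi)) (hb i j)
  have hmx : ∀ i j, j ≠ i → InMax (n i) ((e j : F) * (h j / h i)) := by
    intro i j hji
    have hi : i ∈ Finset.univ.erase j := Finset.mem_erase.2 ⟨hji.symm, Finset.mem_univ i⟩
    refine ⟨a i j, ha i j,
      c i j * ((∏ k ∈ (Finset.univ.erase j).erase i, (c k j * b k j)) * ⟨_, hab i j⟩),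
      (n i).mul_mem_right _ (hc i j hji.symm), ?_⟩
    have e1 : e j = (c i j * b i j) * ∏ k ∈ (Finset.univ.erase j).erase i, (c k j * b k j) :=
      (Finset.mul_prod_erase _ _ hi).symm
    rw [e1]
    simp only [Subring.coe_mul]
    ring
  let H : F := ∑ j, (e j : F) * h j
  have hH : ∀ i, LocUnit (n i) (H / h i) := by
    intro i
    have e2 : H / h i = (e i : F) + ∑ j ∈ Finset.univ.erase i, (e j : F) * (h j / h i) := by
      show (∑ j, (e j : F) * h j) / h i = _
      rw [Finset.sum_div, ← Finset.add_sum_erase _ _ (Finset.mem_univ i)]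
      congr 1
      · rw [mul_div_assoc, div_self (hh i), mul_one]
      · exact Finset.sum_congr rfl fun j _ => by rw [mul_div_assoc]
    have hs : InMax (n i) (∑ j ∈ Finset.univ.erase i, (e j : F) * (h j / h i)) :=
      inMax_sum _ _ fun j hj => hmx i j (Finset.ne_of_mem_erase hj)
    rw [e2]
    refine LocUnit.of_not_inMax ((InLoc.of_mem (n i) (e i).2).add hs.inLoc) fun hcon => ?_
    have h1 : InMax (n i) (-1 * ∑ j ∈ Finset.univ.erase i, (e j : F) * (h j / h i)) :=
      InMax.mul_left (InLoc.of_mem (n i) (CInt R K t).one_mem).neg hs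
    have h2 := hcon.add h1
    have e3 : (e i : F) + ∑ j ∈ Finset.univ.erase i, (e j : F) * (h j / h i)
        + -1 * ∑ j ∈ Finset.univ.erase i, (e j : F) * (h j / h i) = (e i : F) := by ring
    rw [e3] at h2
    exact he i (mem_of_inMax_coe h2)
  have hH0 : H ≠ 0 := by
    intro h0
    have := (hH i₀).1
    rw [h0, zero_div] at this
    exact this rfl
  refine ⟨H, hH0, fun i => ⟨?_, hH i⟩⟩
  have e4 : u * H ^ m = (u * h i ^ m) * (H / h i) ^ m := by
    have h1 := hh i
    rw [div_pow]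
    field_simp
  rw [e4]
  exact locUnit_mul (hu i) (locUnit_pow (hH i) m)

variable {ϖ : R} {x : F} {Vi V0 : ValuationSubring F}

/-- for `τ` inertia-like and `g` locally an `m`-th power up to a generic unit: `τ g / g` is locally
a unit times an `m`-th power. -/
theorem locUnit_inertia (hϖ : Irreducible ϖ) (hB : Branches (K := K) ϖ x Vi V0) {τ : F ≃+* F}
    (hτ : InertiaLike (R := R) (K := K) x Vi V0 τ) {t : F} (ht : t = x ∨ t = x⁻¹)
    {n : Ideal (CInt R K t)} (hn : IsClosedPt ϖ n) {m : ℕ} {g : F} (hg : LocPow ϖ n m g) :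
    ∃ h : F, h ≠ 0 ∧ LocUnit n (τ g / g * h ^ m) := by
  haveI : n.IsPrime := hn.max.isPrime
  obtain ⟨h₀, ε, hh₀, ⟨hε0, k, hk1, hk2⟩, rfl⟩ := hg
  have hτh : τ h₀ ≠ 0 := (map_ne_zero_iff τ τ.injective).2 hh₀
  have hτε : τ ε ≠ 0 := (map_ne_zero_iff τ τ.injective).2 hε0
  have he0 : τ ε / ε ≠ 0 := div_ne_zero hτε hε0
  have hgen : GenUnit ϖ n (τ ε / ε) := by
    refine ⟨he0, k + k, ?_, ?_⟩
    · have := (t0_inLoc_pow_mul hϖ hB hτ ht hn hk1).mul hk2
      have e : rE R K F ϖ ^ (k + k) * (τ ε / ε)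
          = rE R K F ϖ ^ k * τ ε * (rE R K F ϖ ^ k * ε⁻¹) := by
        rw [pow_add, div_eq_mul_inv]; ring
      rwa [e]
    · have := (t0_inLoc_pow_mul hϖ hB hτ ht hn hk2).mul hk1
      have e : rE R K F ϖ ^ (k + k) * (τ ε / ε)⁻¹
          = rE R K F ϖ ^ k * τ ε⁻¹ * (rE R K F ϖ ^ k * ε) := by
        rw [pow_add, inv_div, div_eq_mul_inv, map_inv₀]; ring
      rwa [e]
  have hui := hτ.unit_i hϖ hB hε0
  have hu0 := hτ.unit_0 hϖ hB hε0
  have hl := hB.locUnit_of_genUnit hϖ ht hgen hui.1 hui.2 hu0.1 hu0.2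
  refine ⟨h₀ / τ h₀, div_ne_zero hh₀ hτh, ?_⟩
  have e : τ (ε * h₀ ^ m) / (ε * h₀ ^ m) * (h₀ / τ h₀) ^ m = τ ε / ε := by
    rw [map_mul, map_pow, div_pow]
    field_simp
  rw [e]
  exact hl

/-- **(N3), one chart**: `τ g / g` can be moved to a unit at finitely many closed points. -/
theorem move_inertia (hϖ : Irreducible ϖ) (hB : Branches (K := K) ϖ x Vi V0) {τ : F ≃+* F}
    (hτ : InertiaLike (R := R) (K := K) x Vi V0 τ) {t : F} (ht : t = x ∨ t = x⁻¹)
    {ι : Type} [Finite ι] (n : ι → Ideal (CInt R K t)) (hn : ∀ i, IsClosedPt ϖ (n i))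
    (hinj : Function.Injective n) {m : ℕ} (hm : m ≠ 0) {g : F}
    (hg : ∀ i, LocPow ϖ (n i) m g) :
    ∃ H : F, H ≠ 0 ∧ ∀ i, LocUnit (n i) (τ g / g * H ^ m) := by
  choose h hh hu using fun i => locUnit_inertia hϖ hB hτ ht (hn i) (hg i)
  obtain ⟨H, hH, hH'⟩ := semilocal_move n (fun i => (hn i).max) hinj hm (τ g / g) h hh hu
  exact ⟨H, hH, fun i => (hH' i).1⟩

end Fermat.Agent.S33.N3
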