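import Fermat.Agent.S33.N3.Move
import Fermat.Agent.S33.Mv.SemiLocal

set_option autoImplicit false

/-!
# S33 / N3 / Two : the semi-local moving lemma across the two charts `x`, `x⁻¹` (M7)
-/

noncomputable section

namespace Fermat.Agent.S33.N3

open Polynomial IntermediateField Fermat.Agent.S18 Fermat.Agent.S34

variable {R K F : Type} [CommRing R] [IsDomain R] [IsDiscreteValuationRing R] [Field K] [CharZero K]
  [Algebra R K] [IsFractionRing R K] [Field F] [Algebra K F]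

theorem locUnit_coe {t : F} {n : Ideal (CInt R K t)} [n.IsPrime] {a : CInt R K t} (ha : a ∉ n) :
    LocUnit n (a : F) := by
  have h0 : (a : F) ≠ 0 := fun h => ha (by
    have : a = 0 := Subtype.ext h
    rw [this]; exact n.zero_mem)
  refine ⟨h0, InLoc.of_mem n a.2, a, ha, ?_⟩
  rw [mul_inv_cancel₀ h0]
  exact (CInt R K t).one_mem

theorem pow_notMem' {t : F} {n : Ideal (CInt R K t)} [hn : n.IsPrime] {a : CInt R K t} (ha : a ∉ n)
    (N : ℕ) : a ^ N ∉ n := fun h => ha (hn.mem_of_pow_mem N h)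

/-- the separating elements for one block (against itself and against the other block). -/
theorem half_pair {t t' : F} {ι ι' : Type} (n : ι → Ideal (CInt R K t))
    (n' : ι' → Ideal (CInt R K t'))
    (hmax : ∀ i, (n i).IsMaximal) (hmax' : ∀ j, (n' j).IsMaximal) (hinj : Function.Injective n)
    {m : ℕ} (hm : m ≠ 0) (u : F) (h : ι → F) (h' : ι' → F) (hh : ∀ i, h i ≠ 0)
    (hh' : ∀ j, h' j ≠ 0)
    (hu : ∀ i, LocUnit (n i) (u * h i ^ m)) (hu' : ∀ j, LocUnit (n' j) (u * h' j ^ m))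
    (A E : F) (hA : ∀ i, LocUnit (n i) A) (hE : ∀ i, LocUnit (n i) E)
    (hE' : ∀ j, InMax (n' j) E)
    (hreg : ∀ c ∈ CInt R K t, ∃ N₀ : ℕ, ∀ N, N₀ ≤ N → ∀ j, InLoc (n' j) (c * A ^ N)) :
    (∀ i i', i ≠ i' → ∃ c : F, c ≠ 0 ∧ (∀ k, InLoc (n k) c) ∧ (∀ j, InLoc (n' j) c) ∧
      InLoc (n i) c⁻¹ ∧ InMax (n i') (c * h i / h i')) ∧
    (∀ i j, ∃ c : F, c ≠ 0 ∧ (∀ k, InLoc (n k) c) ∧ (∀ j, InLoc (n' j) c) ∧
      InLoc (n i) c⁻¹ ∧ InMax (n' j) (c * h i / h' j)) := by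
  haveI hpr : ∀ i, (n i).IsPrime := fun i => (hmax i).isPrime
  haveI hpr' : ∀ j, (n' j).IsPrime := fun j => (hmax' j).isPrime
  obtain ⟨k, rfl⟩ := Nat.exists_eq_succ_of_ne_zero hm
  constructor
  · intro i i' hii
    obtain ⟨hu0, ⟨a, ha, ha'⟩, -⟩ := hu i
    obtain ⟨hu0', -, ⟨b, hb, hb'⟩⟩ := hu i'
    have hu1 : u ≠ 0 := left_ne_zero_of_mul hu0
    obtain ⟨s, hs, hs'⟩ : ∃ s : CInt R K t, s ∈ n i' ∧ s ∉ n i := by
      by_contra hcon
      push_neg at hcon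
      have hle : n i' ≤ n i := fun c hc => hcon c hc
      exact hii (hinj ((hmax i').eq_of_le (hmax i).ne_top hle)).symm
    have hab : (a : F) * (b : F) * (h i / h i') ∈ CInt R K t := by
      refine loc_mem_CInt_of_pow hm ?_
      have e : ((a : F) * (b : F) * (h i / h i')) ^ (k + 1)
          = ((a : F) * (b : F)) ^ k * (((a : F) * (u * h i ^ (k + 1)))
            * ((b : F) * (u * h i' ^ (k + 1))⁻¹)) := by
        have h1 := hh i'
        rw [mul_pow, div_pow, mul_inv]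
        field_simp
        ring
      rw [Nat.succ_eq_add_one, e]
      exact mul_mem (pow_mem (mul_mem a.2 b.2) k) (mul_mem ha' hb')
    obtain ⟨N, hN⟩ := hreg ((a : F) * (s : F)) (mul_mem a.2 s.2)
    have hcu : LocUnit (n i) ((a : F) * (s : F) * A ^ N) :=
      locUnit_mul (locUnit_mul (locUnit_coe ha) (locUnit_coe hs')) (locUnit_pow (hA i) N)
    refine ⟨(a : F) * (s : F) * A ^ N, hcu.1,
      fun k' => (InLoc.of_mem _ (mul_mem a.2 s.2)).mul ((hA k').2.1.pow N),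
      fun j => hN N le_rfl j, hcu.2.2, ?_⟩
    have e : (a : F) * (s : F) * A ^ N * h i / h i' = A ^ N * ((s : F) * ((a : F) * (h i / h i'))) := by
      ring
    rw [e]
    refine InMax.mul_left ((hA i').2.1.pow N) ⟨b, hb, s * ⟨_, hab⟩, (n i').mul_mem_right _ hs, ?_⟩
    rw [Subring.coe_mul]
    ring
  · intro i j
    obtain ⟨hu0, ⟨a, ha, ha'⟩, -⟩ := hu i
    have hu1 : u ≠ 0 := left_ne_zero_of_mul hu0
    obtain ⟨N1, hN1⟩ := hreg (a : F) a.2
    obtain ⟨N2, hN2⟩ := hreg ((a : F) ^ k * ((a : F) * (u * h i ^ (k + 1))))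
      (mul_mem (pow_mem a.2 k) ha')
    set N := max N1 N2 with hNdef
    have hcu : LocUnit (n i) ((a : F) * A ^ N * E) :=
      locUnit_mul (locUnit_mul (locUnit_coe ha) (locUnit_pow (hA i) N)) (hE i)
    have hz : InLoc (n' j) ((a : F) * A ^ N * (h i / h' j)) := by
      refine InLoc.of_pow hm ?_
      have e : ((a : F) * A ^ N * (h i / h' j)) ^ (k + 1)
          = ((a : F) ^ k * ((a : F) * (u * h i ^ (k + 1))) * A ^ (N * (k + 1)))
            * (u * h' j ^ (k + 1))⁻¹ := by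
        have h1 := hh' j
        rw [mul_pow, mul_pow, div_pow, mul_inv, ← pow_mul]
        field_simp
        ring
      rw [Nat.succ_eq_add_one, e]
      refine (hN2 (N * (k + 1)) ?_ j).mul (hu' j).2.2
      calc N2 ≤ N := le_max_right _ _
        _ ≤ N * (k + 1) := Nat.le_mul_of_pos_right _ (Nat.succ_pos k)
    refine ⟨(a : F) * A ^ N * E, hcu.1,
      fun k' => ((InLoc.of_mem _ a.2).mul ((hA k').2.1.pow N)).mul (hE k').2.1,
      fun j' => (hN1 N (le_max_left _ _) j').mul (hE' j').inLoc, hcu.2.2, ?_⟩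
    have e : (a : F) * A ^ N * E * h i / h' j = ((a : F) * A ^ N * (h i / h' j)) * E := by ring
    rw [e]
    exact InMax.mul_left hz (hE' j)

/-- **two blocks**: abstract form of the two-chart semi-local moving lemma. -/
theorem move_two_blocks {t t' : F} {ι ι' : Type} [Finite ι] [Finite ι']
    (n : ι → Ideal (CInt R K t)) (n' : ι' → Ideal (CInt R K t'))
    (hmax : ∀ i, (n i).IsMaximal) (hmax' : ∀ j, (n' j).IsMaximal) (hinj : Function.Injective n)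
    (hinj' : Function.Injective n')
    {m : ℕ} (hm : m ≠ 0) (u : F)
    (hu : ∀ i, ∃ h : F, h ≠ 0 ∧ LocUnit (n i) (u * h ^ m))
    (hu' : ∀ j, ∃ h : F, h ≠ 0 ∧ LocUnit (n' j) (u * h ^ m))
    (A E A' E' : F) (hA : ∀ i, LocUnit (n i) A) (hE : ∀ i, LocUnit (n i) E)
    (hE' : ∀ j, InMax (n' j) E)
    (hreg : ∀ c ∈ CInt R K t, ∃ N₀ : ℕ, ∀ N, N₀ ≤ N → ∀ j, InLoc (n' j) (c * A ^ N))
    (hA2 : ∀ j, LocUnit (n' j) A') (hE2 : ∀ j, LocUnit (n' j) E')
    (hE2' : ∀ i, InMax (n i) E')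
    (hreg2 : ∀ c ∈ CInt R K t', ∃ N₀ : ℕ, ∀ N, N₀ ≤ N → ∀ i, InLoc (n i) (c * A' ^ N)) :
    ∃ H : F, H ≠ 0 ∧ (∀ i, LocUnit (n i) (u * H ^ m)) ∧ ∀ j, LocUnit (n' j) (u * H ^ m) := by
  classical
  cases nonempty_fintype ι
  cases nonempty_fintype ι'
  haveI hpr : ∀ i, (n i).IsPrime := fun i => (hmax i).isPrime
  haveI hpr' : ∀ j, (n' j).IsPrime := fun j => (hmax' j).isPrime
  choose h hh hu using hu
  choose h' hh' hu' using hu'
  obtain ⟨p1, p2⟩ := half_pair n n' hmax hmax' hinj hm u h h' hh hh' hu hu' A E hA hE hE' hreg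
  obtain ⟨q1, q2⟩ := half_pair n' n hmax' hmax hinj' hm u h' h hh' hh hu' hu A' E' hA2 hE2 hE2' hreg2
  obtain ⟨H, hH0, hH⟩ := Mv.semilocal (F := F) (κ := ι ⊕ ι')
    (Sum.elim (fun i => Oloc (n i)) (fun j => Oloc (n' j)))
    (Sum.elim (fun i => {z | InMax (n i) z}) (fun j => {z | InMax (n' j) z}))
    (by rintro (i | j)
        · exact inMax_zero (n i)
        · exact inMax_zero (n' j))
    (by rintro (i | j) y z hy hz
        · exact InMax.add hy hz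
        · exact InMax.add hy hz)
    (by rintro (i | j) y z hy hz
        · exact InMax.mul_left (mem_Oloc.1 hy) hz
        · exact InMax.mul_left (mem_Oloc.1 hy) hz)
    (by rintro (i | j) z hz
        · exact mem_Oloc.2 (InMax.inLoc hz)
        · exact mem_Oloc.2 (InMax.inLoc hz))
    (by rintro (i | j) z hz
        · exact mem_Oloc.2 (LocUnit.one_add hz).2.2
        · exact mem_Oloc.2 (LocUnit.one_add hz).2.2)
    (by rintro (i | j) z hz
        · exact (LocUnit.one_add hz).1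
        · exact (LocUnit.one_add hz).1)
    (Sum.elim h h')
    (by rintro (i | j)
        · exact hh i
        · exact hh' j)
    (by
      rintro (i | j) (i' | j') hne
      · obtain ⟨c, c0, c1, c2, c3, c4⟩ := p1 i i' (fun e => hne (by rw [e]))
        refine ⟨c, c0, ?_, mem_Oloc.2 c3, c4⟩
        rintro (l | l)
        · exact mem_Oloc.2 (c1 l)
        · exact mem_Oloc.2 (c2 l)
      · obtain ⟨c, c0, c1, c2, c3, c4⟩ := p2 i j'
        refine ⟨c, c0, ?_, mem_Oloc.2 c3, c4⟩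
        rintro (l | l)
        · exact mem_Oloc.2 (c1 l)
        · exact mem_Oloc.2 (c2 l)
      · obtain ⟨c, c0, c1, c2, c3, c4⟩ := q2 j i'
        refine ⟨c, c0, ?_, mem_Oloc.2 c3, c4⟩
        rintro (l | l)
        · exact mem_Oloc.2 (c2 l)
        · exact mem_Oloc.2 (c1 l)
      · obtain ⟨c, c0, c1, c2, c3, c4⟩ := q1 j j' (fun e => hne (by rw [e]))
        refine ⟨c, c0, ?_, mem_Oloc.2 c3, c4⟩
        rintro (l | l)
        · exact mem_Oloc.2 (c2 l)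
        · exact mem_Oloc.2 (c1 l))
  refine ⟨H, hH0, fun i => ?_, fun j => ?_⟩
  · have h1 := hH (Sum.inl i)
    have h2 : LocUnit (n i) (H / h i) :=
      ⟨div_ne_zero hH0 (hh i), mem_Oloc.1 h1.1, mem_Oloc.1 h1.2⟩
    have e4 : u * H ^ m = (u * h i ^ m) * (H / h i) ^ m := by
      have h1 := hh i
      rw [div_pow]
      field_simp
    rw [e4]
    exact locUnit_mul (hu i) (locUnit_pow h2 m)
  · have h1 := hH (Sum.inr j)
    have h2 : LocUnit (n' j) (H / h' j) :=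
      ⟨div_ne_zero hH0 (hh' j), mem_Oloc.1 h1.1, mem_Oloc.1 h1.2⟩
    have e4 : u * H ^ m = (u * h' j ^ m) * (H / h' j) ^ m := by
      have h1 := hh' j
      rw [div_pow]
      field_simp
    rw [e4]
    exact locUnit_mul (hu' j) (locUnit_pow h2 m)

/-- the two charts `x`, `x⁻¹`, with a "monic polynomial" `P ≡ 1` at the finite points. -/
theorem move_two_PQ {x : F} (hx : x ≠ 0) {ι ι' : Type} [Finite ι] [Finite ι']
    (n : ι → Ideal (CInt R K x)) (n' : ι' → Ideal (CInt R K x⁻¹))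
    (hmax : ∀ i, (n i).IsMaximal) (hmax' : ∀ j, (n' j).IsMaximal) (hinj : Function.Injective n)
    (hinj' : Function.Injective n')
    (P : CInt R K x) (Q : CInt R K x⁻¹) (D : ℕ) (hD : D ≠ 0) (hPQ : (Q : F) = x⁻¹ ^ D * (P : F))
    (hP : ∀ i, P - 1 ∈ n i) (hQ : ∀ j, Q ∉ n' j)
    (hinf : ∀ j, (⟨x⁻¹, self_mem_CInt x⁻¹⟩ : CInt R K x⁻¹) ∈ n' j)
    {m : ℕ} (hm : m ≠ 0) (u : F)
    (hu : ∀ i, ∃ h : F, h ≠ 0 ∧ LocUnit (n i) (u * h ^ m))
    (hu' : ∀ j, ∃ h : F, h ≠ 0 ∧ LocUnit (n' j) (u * h ^ m)) :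
    ∃ H : F, H ≠ 0 ∧ (∀ i, LocUnit (n i) (u * H ^ m)) ∧ ∀ j, LocUnit (n' j) (u * H ^ m) := by
  haveI hpr : ∀ i, (n i).IsPrime := fun i => (hmax i).isPrime
  haveI hpr' : ∀ j, (n' j).IsPrime := fun j => (hmax' j).isPrime
  have hP' : ∀ i, P ∉ n i := fun i hPi => (hmax i).ne_top ((Ideal.eq_top_iff_one _).2 (by
    have := (n i).sub_mem hPi (hP i)
    rwa [sub_sub_cancel] at this))
  have hP0 : ∀ i : ι, (P : F) ≠ 0 := fun i => (locUnit_coe (hP' i)).1
  have hQ0 : ∀ j : ι', (Q : F) ≠ 0 := fun j => (locUnit_coe (hQ j)).1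
  have hP0' : ∀ j : ι', (P : F) ≠ 0 := fun j h0 => hQ0 j (by rw [hPQ, h0, mul_zero])
  have hT : ∀ j, InMax (n' j) (P : F)⁻¹ := fun j =>
    ⟨Q, hQ j, ⟨x⁻¹, self_mem_CInt x⁻¹⟩ ^ D, Ideal.pow_mem_of_mem _ (hinf j) D (Nat.pos_of_ne_zero hD), by
      rw [hPQ, mul_assoc, mul_inv_cancel₀ (hP0' j), mul_one]; rfl⟩
  refine move_two_blocks n n' hmax hmax' hinj hinj' hm u hu hu' (P : F)⁻¹ (P : F)⁻¹ (Q : F)⁻¹
    (1 - (P : F)⁻¹) (fun i => locUnit_inv (locUnit_coe (hP' i)))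
    (fun i => locUnit_inv (locUnit_coe (hP' i))) hT ?_
    (fun j => locUnit_inv (locUnit_coe (hQ j))) ?_ ?_ ?_
  · intro c hc
    obtain ⟨k₀, hk⟩ := fin_to_inf_ge (R := R) (K := K) hx hc
    refine ⟨k₀, fun N hN j => ⟨Q ^ N, pow_notMem' (hQ j) N, ?_⟩⟩
    have e : ((Q ^ N : CInt R K x⁻¹) : F) * (c * (P : F)⁻¹ ^ N) = x⁻¹ ^ (D * N) * c := by
      have h2 : (P : F) ^ N * ((P : F)⁻¹) ^ N = 1 := by
        rw [← mul_pow, mul_inv_cancel₀ (hP0' j), one_pow]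
      calc ((Q ^ N : CInt R K x⁻¹) : F) * (c * (P : F)⁻¹ ^ N)
          = x⁻¹ ^ (D * N) * c * ((P : F) ^ N * ((P : F)⁻¹) ^ N) := by
            rw [Subring.coe_pow, hPQ, mul_pow, ← pow_mul]; ring
        _ = x⁻¹ ^ (D * N) * c := by rw [h2, mul_one]
    rw [e]
    exact hk _ (hN.trans (Nat.le_mul_of_pos_left _ (Nat.pos_of_ne_zero hD)))
  · intro j
    have h1 : InMax (n' j) (-1 * (P : F)⁻¹) :=
      InMax.mul_left (InLoc.of_mem (n' j) (CInt R K x⁻¹).one_mem).neg (hT j)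
    have e : 1 - (P : F)⁻¹ = 1 + -1 * (P : F)⁻¹ := by ring
    rw [e]
    exact LocUnit.one_add h1
  · intro i
    refine ⟨P, hP' i, P - 1, hP i, ?_⟩
    rw [mul_sub, mul_one, mul_inv_cancel₀ (hP0 i)]
    rfl
  · intro c hc
    obtain ⟨k₀, hk⟩ := fin_to_inf_ge (R := R) (K := K) (inv_ne_zero hx) hc
    rw [inv_inv] at hk
    refine ⟨k₀, fun N hN i => ⟨P ^ N, pow_notMem' (hP' i) N, ?_⟩⟩
    have e : ((P ^ N : CInt R K x) : F) * (c * (Q : F)⁻¹ ^ N) = x ^ (D * N) * c := by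
      have h2 : (P : F) ^ N * ((P : F)⁻¹) ^ N = 1 := by
        rw [← mul_pow, mul_inv_cancel₀ (hP0 i), one_pow]
      have hQi : (Q : F)⁻¹ = x ^ D * (P : F)⁻¹ := by rw [hPQ, mul_inv, inv_pow, inv_inv]
      calc ((P ^ N : CInt R K x) : F) * (c * (Q : F)⁻¹ ^ N)
          = x ^ (D * N) * c * ((P : F) ^ N * ((P : F)⁻¹) ^ N) := by
            rw [Subring.coe_pow, hQi, mul_pow, ← pow_mul]; ring
        _ = x ^ (D * N) * c := by rw [h2, mul_one]
    rw [e]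
    exact hk _ (hN.trans (Nat.le_mul_of_pos_left _ (Nat.pos_of_ne_zero hD)))

/-- **(M7)**: the two-chart moving lemma, rational finite points + points over `x = ∞`. -/
theorem move_two_of_ne {x : F} (hx : x ≠ 0) {ι ι' : Type} [Finite ι] [Finite ι']
    (n : ι → Ideal (CInt R K x)) (n' : ι' → Ideal (CInt R K x⁻¹))
    (hn : ∀ i, (n i).IsMaximal) (hn' : ∀ j, (n' j).IsMaximal)
    (hrat : ∀ i, ∃ r : R, (⟨x, self_mem_CInt x⟩ - ⟨rE R K F r, rE_mem_CInt x r⟩ : CInt R K x) ∈ n i)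
    (hinf : ∀ j, (⟨x⁻¹, self_mem_CInt x⁻¹⟩ : CInt R K x⁻¹) ∈ n' j)
    (hinj : Function.Injective n) (hinj' : Function.Injective n')
    {m : ℕ} (hm : m ≠ 0) (u : F)
    (hu : ∀ i, ∃ h : F, h ≠ 0 ∧ LocUnit (n i) (u * h ^ m))
    (hu' : ∀ j, ∃ h : F, h ≠ 0 ∧ LocUnit (n' j) (u * h ^ m)) :
    ∃ H : F, H ≠ 0 ∧ (∀ i, LocUnit (n i) (u * H ^ m)) ∧ ∀ j, LocUnit (n' j) (u * H ^ m) := by
  classical
  cases nonempty_fintype ι
  haveI hpr' : ∀ j, (n' j).IsPrime := fun j => (hn' j).isPrime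
  choose r hr using hrat
  let X : CInt R K x := ⟨x, self_mem_CInt x⟩
  let Y : CInt R K x⁻¹ := ⟨x⁻¹, self_mem_CInt x⁻¹⟩
  let f : ι → CInt R K x := fun i => X - ⟨rE R K F (r i), rE_mem_CInt x (r i)⟩
  let g : ι → CInt R K x⁻¹ := fun i => 1 - ⟨rE R K F (r i), rE_mem_CInt x⁻¹ (r i)⟩ * Y
  refine move_two_PQ hx n n' hn hn' hinj hinj' (1 + X * ∏ i, f i)
    (Y ^ (Fintype.card ι + 1) + ∏ i, g i) (Fintype.card ι + 1) (Nat.succ_ne_zero _) ?_ ?_ ?_ hinf
    hm u hu hu'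
  · have e1 : ∀ i, (g i : F) = x⁻¹ * (f i : F) := by
      intro i
      show 1 - rE R K F (r i) * x⁻¹ = x⁻¹ * (x - rE R K F (r i))
      rw [mul_sub, inv_mul_cancel₀ hx, mul_comm]
    have e2 : ((∏ i, g i : CInt R K x⁻¹) : F) = x⁻¹ ^ Fintype.card ι * ((∏ i, f i : CInt R K x) : F) := by
      have c1 : ((∏ i, g i : CInt R K x⁻¹) : F) = ∏ i, (g i : F) :=
        map_prod (CInt R K x⁻¹).subtype g Finset.univ
      have c2 : ((∏ i, f i : CInt R K x) : F) = ∏ i, (f i : F) :=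
        map_prod (CInt R K x).subtype f Finset.univ
      rw [c1, c2, Finset.prod_congr rfl fun i _ => e1 i,
        Finset.prod_mul_distrib, Finset.prod_const, Finset.card_univ]
    rw [Subring.coe_add, Subring.coe_add, Subring.coe_mul, Subring.coe_pow, e2, Subring.coe_one]
    show x⁻¹ ^ (Fintype.card ι + 1) + _ = x⁻¹ ^ (Fintype.card ι + 1) * (1 + x * _)
    rw [pow_succ]
    field_simp
  · intro i
    rw [add_sub_cancel_left]
    obtain ⟨q, hq⟩ := Finset.dvd_prod_of_mem f (Finset.mem_univ i)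
    rw [hq]
    exact (n i).mul_mem_left _ ((n i).mul_mem_right _ (hr i))
  · intro j hcon
    have h1 : ∏ i, g i ∈ n' j := by
      have := (n' j).sub_mem hcon (Ideal.pow_mem_of_mem _ (hinf j) (Fintype.card ι + 1) (Nat.succ_pos _))
      rwa [add_sub_cancel_left] at this
    refine prod_notMem Finset.univ g (fun i _ hgi => ?_) h1
    refine (hn' j).ne_top ((Ideal.eq_top_iff_one _).2 ?_)
    have := (n' j).add_mem hgi ((n' j).mul_mem_left ⟨rE R K F (r i), rE_mem_CInt x⁻¹ (r i)⟩ (hinf j))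
    rwa [sub_add_cancel] at this

variable {ϖ : R} {x : F} {Vi V0 : ValuationSubring F}

/-- **(M7)** in the promised form. -/
theorem move_two (_hϖ : Irreducible ϖ) (hB : Branches (K := K) ϖ x Vi V0) {ι ι' : Type} [Finite ι]
    [Finite ι']
    (n : ι → Ideal (CInt R K x)) (n' : ι' → Ideal (CInt R K x⁻¹))
    (hn : ∀ i, (n i).IsMaximal) (hn' : ∀ j, (n' j).IsMaximal)
    (hrat : ∀ i, ∃ r : R, (⟨x, self_mem_CInt x⟩ - ⟨rE R K F r, rE_mem_CInt x r⟩ : CInt R K x) ∈ n i)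
    (hinf : ∀ j, (⟨x⁻¹, self_mem_CInt x⁻¹⟩ : CInt R K x⁻¹) ∈ n' j)
    (hinj : Function.Injective n) (hinj' : Function.Injective n')
    {m : ℕ} (hm : m ≠ 0) (u : F)
    (hu : ∀ i, ∃ h : F, h ≠ 0 ∧ LocUnit (n i) (u * h ^ m))
    (hu' : ∀ j, ∃ h : F, h ≠ 0 ∧ LocUnit (n' j) (u * h ^ m)) :
    ∃ H : F, H ≠ 0 ∧ (∀ i, LocUnit (n i) (u * H ^ m)) ∧ ∀ j, LocUnit (n' j) (u * H ^ m) :=
  move_two_of_ne (loc_x_ne_zero hB) n n' hn hn' hrat hinf hinj hinj' hm u hu hu'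

end Fermat.Agent.S33.N3
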